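/-
S13 / EC-LOC at `p` (helper5): for a Legendre-type curve over a valued field and an automorphism
`σ` acting trivially on the residue field, `P - σ P` lies in the kernel of reduction `E1`.
These are the S05 local theorems (`fixed_of_good`, `fixed_of_mult`) stopped before the use of
`v p = 1`, so they are valid in residue characteristic `p`.
-/
import Fermat.Agent.S05.Leg
import Fermat.Agent.S05.E1
import Fermat.Agent.S05.SameRed
import Fermat.Agent.S05.Rigid
import Fermat.Agent.S05.ClsHom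
import Fermat.Agent.S05.LocalGood
import Fermat.Agent.S05.LocalMult

set_option autoImplicit false

namespace Fermat.Agent.S13.LocP

open WeierstrassCurve WeierstrassCurve.Affine
open Fermat.Agent.S05

section Basic

variable {F K : Type*} [Field F] [Field K] [Algebra F K] {Γ₀ : Type*}
  [LinearOrderedCommGroupWithZero Γ₀] (v : Valuation K Γ₀)

/-- An automorphism acting trivially on the residue field preserves non-integrality. -/
theorem one_lt_map_of_one_lt (σ : K ≃ₐ[F] K) (hσ : ∀ x : K, v x ≤ 1 → v (σ x - x) < 1)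
    {x : K} (hx : 1 < v x) : 1 < v (σ x) := by
  have hx0 : x ≠ 0 := by
    rintro rfl
    rw [map_zero] at hx
    exact absurd hx (not_lt.mpr zero_le)
  have hvx0 : v x ≠ 0 := (Valuation.ne_zero_iff v).mpr hx0
  have hinv : v x⁻¹ < 1 := by
    rw [map_inv₀]
    exact inv_lt_one_of_one_lt₀ hx
  have h1 : v (σ x⁻¹ - x⁻¹) < 1 := hσ _ hinv.le
  have h2 : v (σ x⁻¹) < 1 := by
    have : σ x⁻¹ = (σ x⁻¹ - x⁻¹) + x⁻¹ := by ring
    rw [this]
    exact lt_of_le_of_lt (v.map_add _ _) (max_lt h1 hinv)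
  rw [map_inv₀, map_inv₀] at h2
  have hσx0 : v (σ x) ≠ 0 := (Valuation.ne_zero_iff v).mpr ((map_ne_zero σ).mpr hx0)
  by_contra hcon
  have hle : v (σ x) ≤ 1 := not_lt.mp hcon
  have : 1 ≤ (v (σ x))⁻¹ := (one_le_inv₀ (zero_lt_iff.mpr hσx0)).mpr hle
  exact absurd h2 (not_lt.mpr this)

end Basic

variable {F K : Type*} [Field F] [Field K] [Algebra F K] [DecidableEq K] {Γ₀ : Type*}
  [LinearOrderedCommGroupWithZero Γ₀] (v : Valuation K Γ₀)

/-- Good reduction: `P - σ P` lies in the kernel of reduction, for every point `P`. -/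
theorem sub_inE1_of_good (W₀ : Affine F) (hW : IsLeg W₀) (σ : K ≃ₐ[F] K)
    (hσ : ∀ x : K, v x ≤ 1 → v (σ x - x) < 1)
    (h2 : v 2 = 1) (ha : v (algebraMap F K W₀.a₂) ≤ 1) (hb : v (algebraMap F K W₀.a₄) ≤ 1)
    (hΔ : v (algebraMap F K (W₀.a₄ * (W₀.a₂ ^ 2 - 4 * W₀.a₄))) = 1)
    (P : (W₀⁄K).Point) :
    InE1 v (P - Point.map (W' := W₀) σ.toAlgHom P) := by
  have hWK : IsLeg (W₀⁄K) := LocalMult.isLeg_baseChange W₀ hW
  have ha' : v (W₀⁄K).a₂ ≤ 1 := ha
  have hb' : v (W₀⁄K).a₄ ≤ 1 := hb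
  have hΔ' : v ((W₀⁄K).a₄ * ((W₀⁄K).a₂ ^ 2 - 4 * (W₀⁄K).a₄)) = 1 := by
    have : (W₀⁄K).a₄ * ((W₀⁄K).a₂ ^ 2 - 4 * (W₀⁄K).a₄) =
        algebraMap F K (W₀.a₄ * (W₀.a₂ ^ 2 - 4 * W₀.a₄)) := by
      show algebraMap F K W₀.a₄ * (algebraMap F K W₀.a₂ ^ 2 - 4 * algebraMap F K W₀.a₄) = _
      simp only [map_mul, map_sub, map_pow, map_ofNat]
    rw [this]
    exact hΔ
  rcases P with _ | ⟨x, y, h⟩
  · exact trivial
  · have h' : (W₀⁄K).Nonsingular (σ x) (σ y) :=
      (W₀.baseChange_nonsingular σ.toAlgHom.injective ..).mpr h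
    show InE1 v (Point.some x y h - Point.some (σ x) (σ y) h')
    by_cases hx : v x ≤ 1
    · have hE : LegEq (W₀⁄K).a₂ (W₀⁄K).a₄ x y := (hWK.equation_iff x y).mp h.1
      have hy : v y ≤ 1 := LocalGood.v_y_le_one v ha' hb' hE hx
      have hns := LocalGood.nonsingular_reduction v h2 ha' hb' hΔ' hE hx hy
      have hx' : v (x - σ x) < 1 := by rw [Valuation.map_sub_swap]; exact hσ x hx
      have hy' : v (y - σ y) < 1 := by rw [Valuation.map_sub_swap]; exact hσ y hy
      exact sub_inE1_of_same_red v hWK ha' hb' h h' hx hy hx' hy' hns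
    · have hin : InE1 v (Point.some x y h) := not_le.mp hx
      have hin' : InE1 v (Point.some (σ x) (σ y) h') :=
        one_lt_map_of_one_lt v σ hσ (not_le.mp hx)
      rw [sub_eq_add_neg]
      exact inE1_add v hWK ha' hb' hin (inE1_neg v hin')

/-- Multiplicative reduction: `P - σ P` lies in the kernel of reduction, for every `p`-torsion
point `P` (`p` an odd prime, `a₄` a `p`-th power). -/
theorem sub_inE1_of_mult (W₀ : Affine F) (hW : IsLeg W₀) (σ : K ≃ₐ[F] K)
    (hσ : ∀ x : K, v x ≤ 1 → v (σ x - x) < 1)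
    (h2 : v 2 = 1) (ha : v (algebraMap F K W₀.a₂) = 1)
    (hb : v (algebraMap F K W₀.a₄) < 1) (hb0 : W₀.a₄ ≠ 0)
    {p : ℕ} (hp : p.Prime) (hp2 : p ≠ 2)
    {t : F} (ht : W₀.a₄ = t ^ p) {β : K} (hβ : β ^ 2 = algebraMap F K W₀.a₂)
    (P : (W₀⁄K).Point) (hP : p • P = 0) :
    InE1 v (P - Point.map (W' := W₀) σ.toAlgHom P) := by
  have hWK : IsLeg (W₀⁄K) := LocalMult.isLeg_baseChange W₀ hW
  have ha' : v (W₀⁄K).a₂ = 1 := ha
  have hb' : v (W₀⁄K).a₄ < 1 := hb
  have hb0' : (W₀⁄K).a₄ ≠ 0 := by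
    show algebraMap F K W₀.a₄ ≠ 0
    exact (map_ne_zero _).mpr hb0
  have hβ' : β ^ 2 = (W₀⁄K).a₂ := hβ
  rcases P with _ | ⟨x, y, h⟩
  · exact trivial
  · have hE : LegEq (W₀⁄K).a₂ (W₀⁄K).a₄ x y := ((hWK.nonsingular_iff x y).mp h).1
    have h' : (W₀⁄K).Nonsingular (σ x) (σ y) :=
      (W₀.baseChange_nonsingular σ.toAlgHom.injective ..).mpr h
    show InE1 v (Point.some x y h - Point.some (σ x) (σ y) h')
    rcases lt_trichotomy (v x) 1 with hx | hx | hx
    · -- `v x < 1`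
      have htK : (W₀⁄K).a₄ = (algebraMap F K t) ^ p := by
        show algebraMap F K W₀.a₄ = _
        rw [ht, map_pow]
      obtain ⟨hbx, m, hm⟩ :=
        torsion_val v hWK ha' h2 hb' hb0' hβ' hp hp2 htK h hP hx
      have hτ : algebraMap F K t ≠ 0 := by
        intro h0
        apply hb0'
        rw [htK, h0, zero_pow hp.ne_zero]
      have hστ : σ (algebraMap F K t) = algebraMap F K t := σ.commutes t
      have hyx : v y = v x := LocalMult.val_y_eq_val_x v ha' hbx hx hE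
      have hx' : v (x - σ x) < v x := LocalMult.galois_close v σ hσ hτ hστ m hm
      have hy' : v (y - σ y) < v y := LocalMult.galois_close v σ hσ hτ hστ m (hyx.trans hm)
      exact sub_inE1_of_rel_close v hWK ha' h2 hb' h h' hx hbx hx' hy'
    · -- `v x = 1`
      have hy : v y ≤ 1 := LocalMult.val_y_le_one v ha'.le hb'.le hx.le hE
      have hns := LocalMult.nonsing_red v h2 ha' hb' hx hE
      refine sub_inE1_of_same_red v hWK ha'.le hb'.le h h' hx.le hy ?_ ?_ hns
      · rw [Valuation.map_sub_swap]; exact hσ x hx.le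
      · rw [Valuation.map_sub_swap]; exact hσ y hy
    · -- `1 < v x`: both `P` and `σ P` are in the kernel of reduction
      have hin : InE1 v (Point.some x y h) := hx
      have hin' : InE1 v (Point.some (σ x) (σ y) h') := one_lt_map_of_one_lt v σ hσ hx
      rw [sub_eq_add_neg]
      exact inE1_add v hWK ha'.le hb'.le hin (inE1_neg v hin')

end Fermat.Agent.S13.LocP
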