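/-
S13 / EC-LOC at `p` (helper5): `Q - σ Q ∈ E1` for inertia elements `σ` above `p` and `p`-torsion
points `Q` of a Legendre-type curve with integer coefficients having good or multiplicative
reduction at `p` (an odd prime).  Also the equivariant transfer from the Frey-type model.
-/
import Fermat.Agent.S13.LocP.SubE1
import Fermat.Agent.S05.Assemble
import Fermat.Agent.S05.Inertia
import Fermat.Prelude.Def_FLTPrelim_Ramification

set_option autoImplicit false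

namespace Fermat.Agent.S13.LocP

open WeierstrassCurve WeierstrassCurve.Affine
open Fermat.Agent.S05

local notation "Qbar" => AlgebraicClosure ℚ

section IntModel

variable (Wℤ : WeierstrassCurve ℤ)

theorem algebraMap_map_a₂ :
    algebraMap ℚ Qbar (Wℤ.map (Int.castRingHom ℚ) : Affine ℚ).a₂ = (Wℤ.a₂ : Qbar) := by
  show algebraMap ℚ Qbar (Int.castRingHom ℚ Wℤ.a₂) = _
  rw [eq_intCast, map_intCast]

theorem algebraMap_map_a₄ :
    algebraMap ℚ Qbar (Wℤ.map (Int.castRingHom ℚ) : Affine ℚ).a₄ = (Wℤ.a₄ : Qbar) := by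
  show algebraMap ℚ Qbar (Int.castRingHom ℚ Wℤ.a₄) = _
  rw [eq_intCast, map_intCast]

variable {Wℤ}

theorem val_two_eq_one {p : ℕ} (hp : p.Prime) (hp2 : p ≠ 2) (A : ValuationSubring Qbar)
    (hpA : A.valuation ((p : ℕ) : Qbar) < 1) : A.valuation (2 : Qbar) = 1 := by
  have h : ¬ (p : ℤ) ∣ (2 : ℤ) := by
    intro h
    have h' : p ∣ 2 := by exact_mod_cast h
    exact hp2 ((Nat.prime_dvd_prime_iff_eq hp Nat.prime_two).mp h')
  have := val_intCast_eq_one A hp hpA h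
  simpa using this

/-- Multiplicative reduction at `p`. -/
theorem sub_inE1_int_mult (hW : IsLeg (Wℤ.map (Int.castRingHom ℚ) : Affine ℚ)) {p : ℕ}
    (hp : p.Prime) (hp2 : p ≠ 2) (h₂ : ¬ (p : ℤ) ∣ Wℤ.a₂) (h₄ : (p : ℤ) ∣ Wℤ.a₄)
    (h₄0 : Wℤ.a₄ ≠ 0) {t : ℤ} (ht : Wℤ.a₄ = t ^ p)
    (A : ValuationSubring Qbar) (hA : A.LiesOverPrime p) (σ : Qbar ≃ₐ[ℚ] Qbar)
    (hσ : σ ∈ A.inertiaSubgroupIn ℚ)
    (Q : ((Wℤ.map (Int.castRingHom ℚ) : Affine ℚ)⁄Qbar).Point) (hQ : (p : ℤ) • Q = 0) :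
    InE1 A.valuation
      (Q - Point.map (W' := (Wℤ.map (Int.castRingHom ℚ) : Affine ℚ)) σ.toAlgHom Q) := by
  have hpA : A.valuation ((p : ℕ) : Qbar) < 1 := by
    have : ((p : ℕ) : Qbar) ∈ A.nonunits := hA
    rwa [ValuationSubring.mem_nonunits_iff] at this
  have hσ' : ∀ x : Qbar, A.valuation x ≤ 1 → A.valuation (σ x - x) < 1 :=
    fun x hx => inertia_spec A σ hσ x hx
  have h2 := val_two_eq_one hp hp2 A hpA
  have ha : A.valuation (algebraMap ℚ Qbar (Wℤ.map (Int.castRingHom ℚ) : Affine ℚ).a₂) = 1 := by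
    rw [algebraMap_map_a₂]
    exact val_intCast_eq_one A hp hpA h₂
  have hb : A.valuation (algebraMap ℚ Qbar (Wℤ.map (Int.castRingHom ℚ) : Affine ℚ).a₄) < 1 := by
    rw [algebraMap_map_a₄]
    exact val_intCast_lt_one A hpA h₄
  have hb0 : (Wℤ.map (Int.castRingHom ℚ) : Affine ℚ).a₄ ≠ 0 := by
    show Int.castRingHom ℚ Wℤ.a₄ ≠ 0
    rw [eq_intCast]
    exact Int.cast_ne_zero.mpr h₄0
  have ht' : (Wℤ.map (Int.castRingHom ℚ) : Affine ℚ).a₄ = ((t : ℤ) : ℚ) ^ p := by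
    show Int.castRingHom ℚ Wℤ.a₄ = _
    rw [eq_intCast, ht, Int.cast_pow]
  obtain ⟨β, hβ⟩ := IsAlgClosed.exists_pow_nat_eq
    (algebraMap ℚ Qbar (Wℤ.map (Int.castRingHom ℚ) : Affine ℚ).a₂) (n := 2) (by norm_num)
  have hQ' : p • Q = 0 := by rwa [natCast_zsmul] at hQ
  exact sub_inE1_of_mult A.valuation _ hW σ hσ' h2 ha hb hb0 hp hp2 ht' hβ Q hQ'

/-- Good reduction at `p`. -/
theorem sub_inE1_int_good (hW : IsLeg (Wℤ.map (Int.castRingHom ℚ) : Affine ℚ)) {p : ℕ}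
    (hp : p.Prime) (hp2 : p ≠ 2) (hΔ : ¬ (p : ℤ) ∣ Wℤ.a₄ * (Wℤ.a₂ ^ 2 - 4 * Wℤ.a₄))
    (A : ValuationSubring Qbar) (hA : A.LiesOverPrime p) (σ : Qbar ≃ₐ[ℚ] Qbar)
    (hσ : σ ∈ A.inertiaSubgroupIn ℚ)
    (Q : ((Wℤ.map (Int.castRingHom ℚ) : Affine ℚ)⁄Qbar).Point) :
    InE1 A.valuation
      (Q - Point.map (W' := (Wℤ.map (Int.castRingHom ℚ) : Affine ℚ)) σ.toAlgHom Q) := by
  have hpA : A.valuation ((p : ℕ) : Qbar) < 1 := by
    have : ((p : ℕ) : Qbar) ∈ A.nonunits := hA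
    rwa [ValuationSubring.mem_nonunits_iff] at this
  have hσ' : ∀ x : Qbar, A.valuation x ≤ 1 → A.valuation (σ x - x) < 1 :=
    fun x hx => inertia_spec A σ hσ x hx
  have h2 := val_two_eq_one hp hp2 A hpA
  have ha : A.valuation (algebraMap ℚ Qbar (Wℤ.map (Int.castRingHom ℚ) : Affine ℚ).a₂) ≤ 1 := by
    rw [algebraMap_map_a₂]
    exact val_intCast_le_one A _
  have hb : A.valuation (algebraMap ℚ Qbar (Wℤ.map (Int.castRingHom ℚ) : Affine ℚ).a₄) ≤ 1 := by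
    rw [algebraMap_map_a₄]
    exact val_intCast_le_one A _
  have hΔ' : A.valuation (algebraMap ℚ Qbar
      ((Wℤ.map (Int.castRingHom ℚ) : Affine ℚ).a₄ *
        ((Wℤ.map (Int.castRingHom ℚ) : Affine ℚ).a₂ ^ 2 -
          4 * (Wℤ.map (Int.castRingHom ℚ) : Affine ℚ).a₄))) = 1 := by
    have e : algebraMap ℚ Qbar
        ((Wℤ.map (Int.castRingHom ℚ) : Affine ℚ).a₄ *
          ((Wℤ.map (Int.castRingHom ℚ) : Affine ℚ).a₂ ^ 2 -
            4 * (Wℤ.map (Int.castRingHom ℚ) : Affine ℚ).a₄)) =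
        ((Wℤ.a₄ * (Wℤ.a₂ ^ 2 - 4 * Wℤ.a₄) : ℤ) : Qbar) := by
      rw [map_mul, map_sub, map_pow, map_mul, map_ofNat, algebraMap_map_a₂, algebraMap_map_a₄]
      push_cast
      ring
    rw [e]
    exact val_intCast_eq_one A hp hpA hΔ
  exact sub_inE1_of_good A.valuation _ hW σ hσ' h2 ha hb hΔ' Q

end IntModel

section Transfer

variable {K : Type*} [Field K] [Algebra ℚ K] [DecidableEq K]

/-- The transfer `(x, y) ↦ (4 x + r, 8 y + 4 x)` to the Legendre model, as an injective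
Galois-equivariant homomorphism. -/
theorem exists_equivariant_transfer (E₀ W₀ : Affine ℚ) (r₀ : ℚ)
    (hE₁ : E₀.a₁ = 1) (hE₃ : E₀.a₃ = 0) (hE₆ : E₀.a₆ = 0) (hW : IsLeg W₀)
    (h₂ : W₀.a₂ = 4 * E₀.a₂ + 1 - 3 * r₀)
    (h₄ : W₀.a₄ = 16 * E₀.a₄ - 2 * r₀ * (4 * E₀.a₂ + 1) + 3 * r₀ ^ 2)
    (h₆ : r₀ ^ 3 - (4 * E₀.a₂ + 1) * r₀ ^ 2 + 16 * E₀.a₄ * r₀ = 0)
    (h2 : (2 : K) ≠ 0) :
    ∃ φ : (E₀⁄K).Point →+ (W₀⁄K).Point, Function.Injective φ ∧
      ∀ (σ : K ≃ₐ[ℚ] K) (R : (E₀⁄K).Point),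
        φ (Point.map (W' := E₀) σ.toAlgHom R) = Point.map (W' := W₀) σ.toAlgHom (φ R) := by
  have hWK : IsLeg (W₀⁄K) := LocalMult.isLeg_baseChange W₀ hW
  obtain ⟨φ, hinj, hφ⟩ := exists_transfer (E₀⁄K) (W₀⁄K) (algebraMap ℚ K r₀)
    (by show algebraMap ℚ K E₀.a₁ = 1; rw [hE₁, map_one])
    (by show algebraMap ℚ K E₀.a₃ = 0; rw [hE₃, map_zero])
    (by show algebraMap ℚ K E₀.a₆ = 0; rw [hE₆, map_zero]) hWK
    (by
      show algebraMap ℚ K W₀.a₂ = 4 * algebraMap ℚ K E₀.a₂ + 1 - 3 * algebraMap ℚ K r₀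
      rw [h₂]; simp only [map_add, map_sub, map_mul, map_one, map_ofNat, map_pow])
    (by
      show algebraMap ℚ K W₀.a₄ = 16 * algebraMap ℚ K E₀.a₄
        - 2 * algebraMap ℚ K r₀ * (4 * algebraMap ℚ K E₀.a₂ + 1) + 3 * algebraMap ℚ K r₀ ^ 2
      rw [h₄]; simp only [map_add, map_sub, map_mul, map_one, map_ofNat, map_pow])
    (by
      show algebraMap ℚ K r₀ ^ 3 - (4 * algebraMap ℚ K E₀.a₂ + 1) * algebraMap ℚ K r₀ ^ 2
        + 16 * algebraMap ℚ K E₀.a₄ * algebraMap ℚ K r₀ = 0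
      have := congrArg (algebraMap ℚ K) h₆
      simpa only [map_add, map_sub, map_mul, map_one, map_ofNat, map_pow, map_zero] using this) h2
  refine ⟨φ, hinj, fun σ R => ?_⟩
  rcases R with _ | ⟨x, y, h⟩
  · have h0 : (Point.zero : (E₀⁄K).Point) = 0 := rfl
    rw [h0, map_zero, map_zero, map_zero]
  · obtain ⟨h', hh'⟩ := hφ x y h
    rw [hh', Point.map_some, Point.map_some]
    obtain ⟨h'', hh''⟩ := hφ (σ.toAlgHom x) (σ.toAlgHom y)
      ((baseChange_nonsingular (W := E₀) σ.toAlgHom.injective x y).mpr h)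
    rw [hh'']
    simp only [Point.some.injEq]
    constructor
    · simp only [map_add, map_mul, map_ofNat, AlgHom.commutes]
    · simp only [map_add, map_mul, map_ofNat]

end Transfer

end Fermat.Agent.S13.LocP
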