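/-
S13 / EC-LOC at `p` (helper5): a Gauss-lemma bound for split polynomials over a valued field.

If `f = c ∏_{x ∈ s} (X - x)` has all coefficients of valuation `≤ 1`, then
`v c * ∏_{x ∈ s} max 1 (v x) ≤ 1`.  Consequence (`mem_of_prod_ge`): if `t ⊆ s` consists of
non-integral elements and `(v c)⁻¹ ≤ ∏_{x ∈ t} v x`, then every non-integral element of `s` lies
in `t`.
-/
import Mathlib

set_option autoImplicit false

namespace Fermat.Agent.S13.LocP

open Polynomial

variable {K : Type*} [Field K] {Γ₀ : Type*} [LinearOrderedCommGroupWithZero Γ₀]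
  (v : Valuation K Γ₀)

/-- Some coefficient of `f` has valuation at least `B`. -/
def HasCoeffGE (f : K[X]) (B : Γ₀) : Prop := ∃ n, B ≤ v (f.coeff n)

theorem exists_max_coeff (f : K[X]) : ∃ n, ∀ m, v (f.coeff m) ≤ v (f.coeff n) := by
  by_cases hf : f = 0
  · exact ⟨0, fun m => by simp [hf]⟩
  · have hne : f.support.Nonempty := by
      rwa [Finset.nonempty_iff_ne_empty, ne_eq, Polynomial.support_eq_empty]
    obtain ⟨n, -, hn⟩ := Finset.exists_max_image f.support (fun n => v (f.coeff n)) hne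
    refine ⟨n, fun m => ?_⟩
    by_cases hm : m ∈ f.support
    · exact hn m hm
    · rw [Polynomial.notMem_support_iff.mp hm, map_zero]
      exact zero_le

theorem hasCoeffGE_mul_X_sub_C {f : K[X]} {B : Γ₀} (h : HasCoeffGE v f B) (x : K) :
    HasCoeffGE v (f * (X - C x)) (B * max 1 (v x)) := by
  obtain ⟨k, hk⟩ := h
  obtain ⟨n₀, hn₀⟩ := exists_max_coeff v f
  set M := v (f.coeff n₀) with hM
  have hBM : B ≤ M := hk.trans (hn₀ k)
  by_cases hM0 : M = 0
  · refine ⟨0, ?_⟩
    have : B = 0 := le_antisymm (hM0 ▸ hBM) zero_le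
    rw [this, zero_mul]
    exact zero_le
  -- the (finite, nonempty) set of indices where the maximum is attained
  have hsupp : ∀ n, v (f.coeff n) = M → n ∈ f.support := by
    intro n hn
    rw [Polynomial.mem_support_iff]
    intro h0
    rw [h0, map_zero] at hn
    exact hM0 hn.symm
  set S := f.support.filter (fun n => v (f.coeff n) = M) with hS
  have hSne : S.Nonempty := ⟨n₀, by rw [hS, Finset.mem_filter]; exact ⟨hsupp n₀ rfl, rfl⟩⟩
  have hmemS : ∀ n, n ∈ S ↔ v (f.coeff n) = M := by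
    intro n
    rw [hS, Finset.mem_filter]
    exact ⟨fun h => h.2, fun h => ⟨hsupp n h, h⟩⟩
  rcases le_or_gt (v x) 1 with hx | hx
  · -- integral root: look at the largest index of maximal valuation
    rw [max_eq_left hx, mul_one]
    set n₁ := S.max' hSne with hn₁
    have hn₁S : v (f.coeff n₁) = M := (hmemS n₁).mp (Finset.max'_mem S hSne)
    have hlt : v (f.coeff (n₁ + 1)) < M := by
      refine lt_of_le_of_ne (hn₀ _) fun heq => ?_
      have := Finset.le_max' S (n₁ + 1) ((hmemS _).mpr heq)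
      omega
    refine ⟨n₁ + 1, ?_⟩
    rw [Polynomial.coeff_mul_X_sub_C]
    have h2 : v (f.coeff (n₁ + 1) * x) < v (f.coeff n₁) := by
      rw [map_mul, hn₁S]
      calc v (f.coeff (n₁ + 1)) * v x ≤ v (f.coeff (n₁ + 1)) * 1 := by gcongr
        _ = v (f.coeff (n₁ + 1)) := mul_one _
        _ < M := hlt
    rw [Valuation.map_sub_eq_of_lt_left v h2, hn₁S]
    exact hBM
  · -- non-integral root: look at the smallest index of maximal valuation
    rw [max_eq_right hx.le]
    set n₁ := S.min' hSne with hn₁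
    have hn₁S : v (f.coeff n₁) = M := (hmemS n₁).mp (Finset.min'_mem S hSne)
    have hMx : B * v x ≤ M * v x := by gcongr
    rcases Nat.eq_zero_or_pos n₁ with h0 | hpos
    · refine ⟨0, ?_⟩
      rw [Polynomial.mul_coeff_zero]
      have : (X - C x : K[X]).coeff 0 = -x := by simp
      rw [this, map_mul, Valuation.map_neg, ← h0, hn₁S]
      exact hMx
    · obtain ⟨j, hj⟩ : ∃ j, n₁ = j + 1 := ⟨n₁ - 1, by omega⟩
      have hlt : v (f.coeff j) < M := by
        refine lt_of_le_of_ne (hn₀ _) fun heq => ?_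
        have := Finset.min'_le S j ((hmemS _).mpr heq)
        omega
      refine ⟨j + 1, ?_⟩
      rw [Polynomial.coeff_mul_X_sub_C]
      have hval : v (f.coeff (j + 1) * x) = M * v x := by rw [map_mul, ← hj, hn₁S]
      have h2 : v (f.coeff j) < v (f.coeff (j + 1) * x) := by
        rw [hval]
        calc v (f.coeff j) < M := hlt
          _ = M * 1 := (mul_one _).symm
          _ ≤ M * v x := by gcongr
      rw [Valuation.map_sub_eq_of_lt_right v h2, hval]
      exact hMx

theorem hasCoeffGE_prod [DecidableEq K] (c : K) (s : Finset K) :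
    HasCoeffGE v (C c * ∏ x ∈ s, (X - C x)) (v c * ∏ x ∈ s, max 1 (v x)) := by
  induction s using Finset.induction_on with
  | empty =>
    refine ⟨0, ?_⟩
    simp
  | insert a s ha ih =>
    rw [Finset.prod_insert ha, Finset.prod_insert ha]
    have := hasCoeffGE_mul_X_sub_C v ih a
    have e1 : C c * ((X - C a) * ∏ x ∈ s, (X - C x)) = C c * (∏ x ∈ s, (X - C x)) * (X - C a) := by
      ring
    have e2 : v c * (max 1 (v a) * ∏ x ∈ s, max 1 (v x)) =
        v c * (∏ x ∈ s, max 1 (v x)) * max 1 (v a) := by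
      rw [mul_assoc, mul_comm (max 1 (v a))]
    rw [e1, e2]
    exact this

/-- **Gauss bound**: if `c ∏_{x ∈ s} (X - x)` has integral coefficients then
`v c * ∏_{x ∈ s} max 1 (v x) ≤ 1`. -/
theorem gauss_bound [DecidableEq K] (c : K) (s : Finset K)
    (hint : ∀ n, v ((C c * ∏ x ∈ s, (X - C x)).coeff n) ≤ 1) :
    v c * ∏ x ∈ s, max 1 (v x) ≤ 1 := by
  obtain ⟨n, hn⟩ := hasCoeffGE_prod v c s
  exact hn.trans (hint n)

/-- Sub-products of non-integral roots are bounded as well. -/
theorem gauss_bound_subset [DecidableEq K] (c : K) (s t : Finset K) (hts : t ⊆ s)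
    (ht : ∀ x ∈ t, 1 < v x)
    (hint : ∀ n, v ((C c * ∏ x ∈ s, (X - C x)).coeff n) ≤ 1) :
    v c * ∏ x ∈ t, v x ≤ 1 := by
  refine le_trans ?_ (gauss_bound v c s hint)
  gcongr
  calc ∏ x ∈ t, v x = ∏ x ∈ t, max 1 (v x) :=
        Finset.prod_congr rfl fun x hx => (max_eq_right (ht x hx).le).symm
    _ ≤ ∏ x ∈ s, max 1 (v x) :=
        Finset.prod_le_prod_of_subset_of_one_le' hts fun x _ _ => le_max_left _ _

/-- **The counting consequence.**  Let `t ⊆ s` consist of non-integral elements with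
`(v c)⁻¹ ≤ ∏_{x ∈ t} v x` (`c ≠ 0`).  If `c ∏_{x ∈ s}(X - x)` has integral coefficients, then every
non-integral element of `s` lies in `t`. -/
theorem mem_of_prod_ge [DecidableEq K] {c : K} (hc : c ≠ 0) (s t : Finset K) (hts : t ⊆ s)
    (ht : ∀ x ∈ t, 1 < v x)
    (hint : ∀ n, v ((C c * ∏ x ∈ s, (X - C x)).coeff n) ≤ 1)
    (hprod : (v c)⁻¹ ≤ ∏ x ∈ t, v x) {x₀ : K} (hx₀ : x₀ ∈ s) (hv : 1 < v x₀) : x₀ ∈ t := by
  by_contra hnot
  have hvc : v c ≠ 0 := (Valuation.ne_zero_iff v).mpr hc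
  have hsub : insert x₀ t ⊆ s := Finset.insert_subset hx₀ hts
  have hall : ∀ x ∈ insert x₀ t, 1 < v x := by
    intro x hx
    rcases Finset.mem_insert.mp hx with rfl | hx
    · exact hv
    · exact ht x hx
  have hb := gauss_bound_subset v c s (insert x₀ t) hsub hall hint
  rw [Finset.prod_insert hnot] at hb
  have h1 : 1 ≤ v c * ∏ x ∈ t, v x := by
    calc (1 : Γ₀) = v c * (v c)⁻¹ := (mul_inv_cancel₀ hvc).symm
      _ ≤ v c * ∏ x ∈ t, v x := by gcongr
  have hpos : 0 < v c * ∏ x ∈ t, v x := lt_of_lt_of_le zero_lt_one h1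
  have h2 : v c * ∏ x ∈ t, v x < v c * (v x₀ * ∏ x ∈ t, v x) := by
    calc v c * ∏ x ∈ t, v x = 1 * (v c * ∏ x ∈ t, v x) := (one_mul _).symm
      _ < v x₀ * (v c * ∏ x ∈ t, v x) := by
          exact mul_lt_mul_of_pos_right hv hpos
      _ = v c * (v x₀ * ∏ x ∈ t, v x) := by rw [mul_left_comm]
  exact absurd (lt_of_le_of_lt h1 (lt_of_lt_of_le h2 hb)) (lt_irrefl _)

end Fermat.Agent.S13.LocP
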