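/-
S13 / EC-LOC at `p` (helper5): the abstract dichotomy on a Legendre-type curve `W` over a valued
field `(K, v)`.

Data: a prime-order ("every nonzero element generates") subgroup `N₀` of the `p`-torsion of `W`,
the finite set `XN` of `x`-coordinates of `N₀ ∖ 0`, the finite set `s` of `x`-coordinates of all
nonzero `p`-torsion points, and the factorisation `preΨ_p = p ∏_{x ∈ s} (X - x)` with integral
coefficients.

* `mem_of_inE1`: if `(v p)⁻¹ ≤ v (∏ XN)` then every `p`-torsion point in the kernel of reduction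
  `E1` lies in `N₀`;
* `eq_zero_of_inE1`: if `v (∏ XN) ≤ 1` then `N₀ ∩ E1 = 0`.
-/
import Fermat.Agent.S05.Leg
import Fermat.Agent.S05.E1
import Fermat.Agent.S13.LocP.GaussVal

set_option autoImplicit false

namespace Fermat.Agent.S13.LocP

open WeierstrassCurve WeierstrassCurve.Affine Polynomial
open Fermat.Agent.S05

section Ordered

variable {Γ₀ : Type*} [LinearOrderedCommGroupWithZero Γ₀]

theorem one_lt_finset_prod {ι : Type*} (s : Finset ι) (f : ι → Γ₀) (hs : s.Nonempty)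
    (h : ∀ i ∈ s, 1 < f i) : 1 < ∏ i ∈ s, f i := by
  classical
  obtain ⟨i, hi⟩ := hs
  rw [← Finset.mul_prod_erase s f hi]
  have h1 : 1 ≤ ∏ j ∈ s.erase i, f j :=
    Finset.one_le_prod' fun j hj => (h j (Finset.mem_of_mem_erase hj)).le
  calc (1 : Γ₀) < f i := h i hi
    _ = f i * 1 := (mul_one _).symm
    _ ≤ f i * ∏ j ∈ s.erase i, f j := by gcongr

theorem exists_one_lt_of_one_lt_prod {ι : Type*} (s : Finset ι) (f : ι → Γ₀)
    (h : 1 < ∏ i ∈ s, f i) : ∃ i ∈ s, 1 < f i := by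
  by_contra hcon
  have hcon' : ∀ i ∈ s, f i ≤ 1 := fun i hi => not_lt.mp fun hlt => hcon ⟨i, hi, hlt⟩
  exact absurd h (not_lt.mpr (Finset.prod_le_one' hcon'))

end Ordered

variable {K : Type*} [Field K] [DecidableEq K] {Γ₀ : Type*} [LinearOrderedCommGroupWithZero Γ₀]
  (v : Valuation K Γ₀) {W : Affine K}

/-- In a subgroup all of whose nonzero elements are generators, one nonzero element in the kernel
of reduction forces the whole subgroup into the kernel of reduction. -/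
theorem all_inE1_of_exists (hW : IsLeg W) (ha : v W.a₂ ≤ 1) (hb : v W.a₄ ≤ 1)
    (N₀ : AddSubgroup W.Point)
    (hcyc : ∀ Q ∈ N₀, Q ≠ 0 → ∀ R ∈ N₀, ∃ k : ℤ, R = k • Q)
    {Q : W.Point} (hQ : Q ∈ N₀) (hQ0 : Q ≠ 0) (hQ1 : InE1 v Q) {R : W.Point} (hR : R ∈ N₀) :
    InE1 v R := by
  obtain ⟨k, rfl⟩ := hcyc Q hQ hQ0 R hR
  exact (E1.mem_E1sub v hW ha hb).mp
    ((E1.E1sub v hW ha hb).zsmul_mem ((E1.mem_E1sub v hW ha hb).mpr hQ1) k)

omit [DecidableEq K] in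
/-- Two affine points of a Legendre-type curve with the same `x`-coordinate are equal or
opposite. -/
theorem eq_or_eq_neg_of_x_eq (hW : IsLeg W) {x y y' : K} (h : W.Nonsingular x y)
    (h' : W.Nonsingular x y') :
    Point.some x y h = Point.some x y' h' ∨ Point.some x y h = -Point.some x y' h' := by
  have e := (hW.equation_iff x y).mp h.1
  have e' := (hW.equation_iff x y').mp h'.1
  unfold LegEq at e e'
  have hyy : (y - y') * (y + y') = 0 := by linear_combination e - e'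
  rcases mul_eq_zero.mp hyy with h1 | h1
  · left
    have : y = y' := sub_eq_zero.mp h1
    subst this
    rfl
  · right
    have : y = -y' := eq_neg_of_add_eq_zero_left h1
    subst this
    rw [hW.neg_some h']

/-- **Case "`N₀ ⊆ E1`".**  If the product of the `x`-coordinates of `N₀ ∖ 0` has valuation at
least `(v p)⁻¹`, then every `p`-torsion point in the kernel of reduction lies in `N₀`. -/
theorem mem_of_inE1 (hW : IsLeg W) (ha : v W.a₂ ≤ 1) (hb : v W.a₄ ≤ 1)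
    {p : ℕ} (hp0 : (p : K) ≠ 0) (hpv : v (p : K) < 1)
    (s : Finset K) (hs : ∀ x, x ∈ s ↔ ∃ y h, (p : ℤ) • Point.some (W' := W) x y h = 0)
    (hpre : W.preΨ (p : ℤ) = C (p : K) * ∏ x ∈ s, (X - C x))
    (hint : ∀ n, v ((W.preΨ (p : ℤ)).coeff n) ≤ 1)
    (N₀ : AddSubgroup W.Point) (hNp : ∀ R ∈ N₀, (p : ℤ) • R = 0)
    (hcyc : ∀ Q ∈ N₀, Q ≠ 0 → ∀ R ∈ N₀, ∃ k : ℤ, R = k • Q)
    (XN : Finset K) (hXN : ∀ x, x ∈ XN ↔ ∃ y h, Point.some (W' := W) x y h ∈ N₀)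
    (hprod : (v (p : K))⁻¹ ≤ v (∏ x ∈ XN, x))
    {R : W.Point} (hRp : (p : ℤ) • R = 0) (hR1 : InE1 v R) : R ∈ N₀ := by
  have hvp0 : v (p : K) ≠ 0 := (Valuation.ne_zero_iff v).mpr hp0
  rw [map_prod] at hprod
  have h1 : 1 < ∏ x ∈ XN, v x :=
    lt_of_lt_of_le ((one_lt_inv₀ (zero_lt_iff.mpr hvp0)).mpr hpv) hprod
  obtain ⟨x₁, hx₁, hvx₁⟩ := exists_one_lt_of_one_lt_prod XN (fun x => v x) h1
  obtain ⟨y₁, hns₁, hQ₁⟩ := (hXN x₁).mp hx₁
  have hall : ∀ x ∈ XN, 1 < v x := by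
    intro x hx
    obtain ⟨y, hns, hQ⟩ := (hXN x).mp hx
    exact all_inE1_of_exists v hW ha hb N₀ hcyc hQ₁ (Point.some_ne_zero hns₁) hvx₁ hQ
  have hsub : XN ⊆ s := by
    intro x hx
    obtain ⟨y, hns, hQ⟩ := (hXN x).mp hx
    exact (hs x).mpr ⟨y, hns, hNp _ hQ⟩
  rcases R with _ | ⟨x₀, y₀, h₀⟩
  · exact N₀.zero_mem
  · have hx₀s : x₀ ∈ s := (hs x₀).mpr ⟨y₀, h₀, hRp⟩
    rw [hpre] at hint
    have hx₀ : x₀ ∈ XN := mem_of_prod_ge v hp0 s XN hsub hall hint hprod hx₀s hR1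
    obtain ⟨y', hns', hQ'⟩ := (hXN x₀).mp hx₀
    rcases eq_or_eq_neg_of_x_eq hW h₀ hns' with h | h
    · rw [h]; exact hQ'
    · rw [h]; exact N₀.neg_mem hQ'

/-- **Case "`N₀ ∩ E1 = 0`".**  If the product of the `x`-coordinates of `N₀ ∖ 0` is integral, then
no nonzero point of `N₀` lies in the kernel of reduction. -/
theorem eq_zero_of_inE1 (hW : IsLeg W) (ha : v W.a₂ ≤ 1) (hb : v W.a₄ ≤ 1)
    (N₀ : AddSubgroup W.Point)
    (hcyc : ∀ Q ∈ N₀, Q ≠ 0 → ∀ R ∈ N₀, ∃ k : ℤ, R = k • Q)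
    (XN : Finset K) (hXN : ∀ x, x ∈ XN ↔ ∃ y h, Point.some (W' := W) x y h ∈ N₀)
    (hprod : v (∏ x ∈ XN, x) ≤ 1)
    {R : W.Point} (hR : R ∈ N₀) (hR1 : InE1 v R) : R = 0 := by
  by_contra hR0
  have hall : ∀ x ∈ XN, 1 < v x := by
    intro x hx
    obtain ⟨y, hns, hQ⟩ := (hXN x).mp hx
    exact all_inE1_of_exists v hW ha hb N₀ hcyc hR hR0 hR1 hQ
  have hne : XN.Nonempty := by
    rcases R with _ | ⟨x₀, y₀, h₀⟩
    · exact absurd rfl hR0
    · exact ⟨x₀, (hXN x₀).mpr ⟨y₀, h₀, hR⟩⟩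
  rw [map_prod] at hprod
  exact absurd (one_lt_finset_prod XN (fun x => v x) hne hall) (not_lt.mpr hprod)

end Fermat.Agent.S13.LocP
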