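/-
S13 / EC-LOC at `p` (helper5): the dichotomy at `p` for a Legendre-type curve with integer
coefficients over `AlgebraicClosure ℚ`, uniformly over all valuation subrings above `p`.

`N₀` is a Galois-stable subgroup of the `p`-torsion, all of whose nonzero elements are generators.
The product `t` of the `x`-coordinates of `N₀ ∖ 0` is a rational number; according to whether `p`
divides its denominator or not, either `(1 - σ) V ⊆ N₀` for all inertia elements `σ` above `p`,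
or all inertia elements above `p` fix `N₀` pointwise.
-/
import Fermat.Agent.S13.LocP.Core
import Fermat.Agent.S05.Assemble
import Fermat.Agent.S05.LocalMult
import Fermat.Agent.Lib.GalQbar
import Fermat.Prelude.Def_FLTPrelim_Ramification

set_option autoImplicit false

namespace Fermat.Agent.S13.LocP

open WeierstrassCurve WeierstrassCurve.Affine Polynomial
open Fermat.Agent.S05

section RatVal

variable {K : Type*} [Field K] [CharZero K] (A : ValuationSubring K)

omit [CharZero K] in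
theorem val_natCast_le_one (n : ℕ) : A.valuation (n : K) ≤ 1 := by
  have := val_intCast_le_one A (n : ℤ)
  rwa [Int.cast_natCast] at this

/-- If `p` divides the denominator of the rational number `t`, then `v t ≥ (v p)⁻¹`. -/
theorem inv_val_le_val_rat {p : ℕ} (hp : p.Prime) (hpA : A.valuation (p : K) < 1) (t : ℚ)
    (h : p ∣ t.den) : (A.valuation (p : K))⁻¹ ≤ A.valuation (t : K) := by
  have hnum : A.valuation (t.num : K) = 1 := by
    apply val_intCast_eq_one A hp hpA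
    intro hd
    have h1 : p ∣ t.num.natAbs := Int.natCast_dvd.mp hd
    have h2 : p ∣ Nat.gcd t.num.natAbs t.den := Nat.dvd_gcd h1 h
    rw [Nat.Coprime.gcd_eq_one t.reduced] at h2
    exact hp.one_lt.ne' (Nat.dvd_one.mp h2)
  have hp0 : (p : K) ≠ 0 := Nat.cast_ne_zero.mpr hp.ne_zero
  have hden0 : (t.den : K) ≠ 0 := Nat.cast_ne_zero.mpr t.den_ne_zero
  have hvden0 : A.valuation (t.den : K) ≠ 0 := (Valuation.ne_zero_iff _).mpr hden0
  have hden : A.valuation (t.den : K) ≤ A.valuation (p : K) := by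
    obtain ⟨m, hm⟩ := h
    rw [hm, Nat.cast_mul, map_mul]
    calc A.valuation (p : K) * A.valuation (m : K) ≤ A.valuation (p : K) * 1 := by
          gcongr
          exact val_natCast_le_one A m
      _ = A.valuation (p : K) := mul_one _
  rw [Rat.cast_def, map_div₀, hnum, one_div]
  exact inv_anti₀ (zero_lt_iff.mpr hvden0) hden

omit [CharZero K] in
/-- If `p` does not divide the denominator of the rational number `t`, then `v t ≤ 1`. -/
theorem val_rat_le_one {p : ℕ} (hp : p.Prime) (hpA : A.valuation (p : K) < 1) (t : ℚ)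
    (h : ¬ p ∣ t.den) : A.valuation (t : K) ≤ 1 := by
  have hden : A.valuation (t.den : K) = 1 := by
    have := val_intCast_eq_one A hp hpA (n := (t.den : ℤ))
      (fun hd => h (Int.natCast_dvd_natCast.mp hd))
    rwa [Int.cast_natCast] at this
  rw [Rat.cast_def, map_div₀, hden, div_one]
  exact val_intCast_le_one A _

end RatVal

local notation "Qbar" => AlgebraicClosure ℚ

section Integrality

variable (A : ValuationSubring Qbar) (Wℤ : WeierstrassCurve ℤ)

theorem baseChange_map_int :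
    ((Wℤ.map (Int.castRingHom ℚ) : Affine ℚ)⁄Qbar) = Wℤ.map (Int.castRingHom Qbar) := by
  show (Wℤ.map (Int.castRingHom ℚ)).map (algebraMap ℚ Qbar) = _
  rw [WeierstrassCurve.map_map]
  congr 1

theorem val_a₂_le_one :
    A.valuation ((Wℤ.map (Int.castRingHom ℚ) : Affine ℚ)⁄Qbar).a₂ ≤ 1 := by
  rw [baseChange_map_int]
  exact val_intCast_le_one A _

theorem val_a₄_le_one :
    A.valuation ((Wℤ.map (Int.castRingHom ℚ) : Affine ℚ)⁄Qbar).a₄ ≤ 1 := by
  rw [baseChange_map_int]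
  exact val_intCast_le_one A _

theorem val_coeff_preΨ_le_one (n : ℤ) (k : ℕ) :
    A.valuation ((((Wℤ.map (Int.castRingHom ℚ) : Affine ℚ)⁄Qbar).preΨ n).coeff k) ≤ 1 := by
  rw [baseChange_map_int, WeierstrassCurve.map_preΨ, Polynomial.coeff_map]
  exact val_intCast_le_one A _

end Integrality

/-- **Dichotomy at `p` for the Legendre model** (uniform over the valuation subrings above `p`). -/
theorem leg_dichotomy (Wℤ : WeierstrassCurve ℤ)
    (hW : IsLeg (Wℤ.map (Int.castRingHom ℚ) : Affine ℚ)) {p : ℕ} (hp : p.Prime)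
    (hsub : ∀ A : ValuationSubring Qbar, A.LiesOverPrime p → ∀ σ ∈ A.inertiaSubgroupIn ℚ,
      ∀ Q : ((Wℤ.map (Int.castRingHom ℚ) : Affine ℚ)⁄Qbar).Point, (p : ℤ) • Q = 0 →
        InE1 A.valuation (Q - Point.map (W' := (Wℤ.map (Int.castRingHom ℚ) : Affine ℚ))
          σ.toAlgHom Q))
    (s : Finset Qbar)
    (hs : ∀ x, x ∈ s ↔ ∃ y h, (p : ℤ) •
      Point.some (W' := (Wℤ.map (Int.castRingHom ℚ) : Affine ℚ)⁄Qbar) x y h = 0)
    (hpre : ((Wℤ.map (Int.castRingHom ℚ) : Affine ℚ)⁄Qbar).preΨ (p : ℤ) =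
      C (p : Qbar) * ∏ x ∈ s, (X - C x))
    (N₀ : AddSubgroup ((Wℤ.map (Int.castRingHom ℚ) : Affine ℚ)⁄Qbar).Point)
    (hNp : ∀ R ∈ N₀, (p : ℤ) • R = 0)
    (hcyc : ∀ Q ∈ N₀, Q ≠ 0 → ∀ R ∈ N₀, ∃ k : ℤ, R = k • Q)
    (hstab : ∀ σ : Qbar ≃ₐ[ℚ] Qbar, ∀ R ∈ N₀,
      Point.map (W' := (Wℤ.map (Int.castRingHom ℚ) : Affine ℚ)) σ.toAlgHom R ∈ N₀) :
    (∀ A : ValuationSubring Qbar, A.LiesOverPrime p → ∀ σ ∈ A.inertiaSubgroupIn ℚ,
      ∀ Q : ((Wℤ.map (Int.castRingHom ℚ) : Affine ℚ)⁄Qbar).Point, (p : ℤ) • Q = 0 →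
        Q - Point.map (W' := (Wℤ.map (Int.castRingHom ℚ) : Affine ℚ)) σ.toAlgHom Q ∈ N₀) ∨
    (∀ A : ValuationSubring Qbar, A.LiesOverPrime p → ∀ σ ∈ A.inertiaSubgroupIn ℚ,
      ∀ Q ∈ N₀, Point.map (W' := (Wℤ.map (Int.castRingHom ℚ) : Affine ℚ)) σ.toAlgHom Q = Q) := by
  have hWK : IsLeg ((Wℤ.map (Int.castRingHom ℚ) : Affine ℚ)⁄Qbar) :=
    LocalMult.isLeg_baseChange _ hW
  have hp0 : ((p : ℕ) : Qbar) ≠ 0 := Nat.cast_ne_zero.mpr hp.ne_zero
  -- the finite set of `x`-coordinates of `N₀ ∖ 0`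
  have hfin : {x : Qbar | ∃ y h, Point.some
      (W' := (Wℤ.map (Int.castRingHom ℚ) : Affine ℚ)⁄Qbar) x y h ∈ N₀}.Finite := by
    refine s.finite_toSet.subset ?_
    rintro x ⟨y, h, hQ⟩
    exact (hs x).mpr ⟨y, h, hNp _ hQ⟩
  obtain ⟨XN, hXN⟩ : ∃ XN : Finset Qbar, ∀ x, x ∈ XN ↔ ∃ y h, Point.some
      (W' := (Wℤ.map (Int.castRingHom ℚ) : Affine ℚ)⁄Qbar) x y h ∈ N₀ :=
    ⟨hfin.toFinset, fun x => hfin.mem_toFinset⟩
  -- the product of these `x`-coordinates is rational
  have hfix : ∀ σ : Qbar ≃ₐ[ℚ] Qbar, σ (∏ x ∈ XN, x) = ∏ x ∈ XN, x := by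
    intro σ
    have himg : XN.image σ = XN := by
      apply Finset.eq_of_subset_of_card_le
      · intro x' hx'
        obtain ⟨x, hx, rfl⟩ := Finset.mem_image.mp hx'
        obtain ⟨y, h, hQ⟩ := (hXN x).mp hx
        have := hstab σ _ hQ
        rw [Point.map_some] at this
        exact (hXN _).mpr ⟨_, _, this⟩
      · rw [Finset.card_image_of_injective _ σ.injective]
    rw [map_prod]
    conv_rhs => rw [← himg]
    rw [Finset.prod_image (fun x _ y _ hxy => σ.injective hxy)]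
  obtain ⟨t, ht⟩ := Fermat.Agent.Lib.GalQbar.exists_ratCast_of_fixed _ hfix
  by_cases hden : p ∣ t.den
  · left
    intro A hA σ hσ Q hQ
    have hpA : A.valuation ((p : ℕ) : Qbar) < 1 := by
      have : ((p : ℕ) : Qbar) ∈ A.nonunits := hA
      rwa [ValuationSubring.mem_nonunits_iff] at this
    have hprod : (A.valuation ((p : ℕ) : Qbar))⁻¹ ≤ A.valuation (∏ x ∈ XN, x) := by
      rw [← ht]
      exact inv_val_le_val_rat A hp hpA t hden
    have hQσ : (p : ℤ) • (Q - Point.map (W' := (Wℤ.map (Int.castRingHom ℚ) : Affine ℚ))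
        σ.toAlgHom Q) = 0 := by
      rw [zsmul_sub, ← map_zsmul, hQ, map_zero, sub_zero]
    exact mem_of_inE1 A.valuation hWK (val_a₂_le_one A Wℤ) (val_a₄_le_one A Wℤ) hp0 hpA s hs hpre
      (fun n => val_coeff_preΨ_le_one A Wℤ _ n) N₀ hNp hcyc XN hXN hprod hQσ
      (hsub A hA σ hσ Q hQ)
  · right
    intro A hA σ hσ Q hQ
    have hpA : A.valuation ((p : ℕ) : Qbar) < 1 := by
      have : ((p : ℕ) : Qbar) ∈ A.nonunits := hA
      rwa [ValuationSubring.mem_nonunits_iff] at this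
    have hprod : A.valuation (∏ x ∈ XN, x) ≤ 1 := by
      rw [← ht]
      exact val_rat_le_one A hp hpA t hden
    have hmem : Q - Point.map (W' := (Wℤ.map (Int.castRingHom ℚ) : Affine ℚ)) σ.toAlgHom Q ∈ N₀ :=
      N₀.sub_mem hQ (hstab σ Q hQ)
    have h0 := eq_zero_of_inE1 A.valuation hWK (val_a₂_le_one A Wℤ) (val_a₄_le_one A Wℤ) N₀ hcyc
      XN hXN hprod hmem (hsub A hA σ hσ Q (hNp Q hQ))
    exact (sub_eq_zero.mp h0).symm

end Fermat.Agent.S13.LocP
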