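/-
S13 / EC-LOC at `p` (helper5): the local dichotomy at `p` for the Frey curve.

For a Galois-stable line `N` in `V = E[p]` (`E` the Frey curve, `p = P.p`): either every inertia
element `σ` above `p` satisfies `(σ - 1) V ⊆ N`, or every inertia element above `p` fixes `N`
pointwise.  The alternative is uniform over all valuation subrings above `p`.
-/
import Fermat.Agent.S13.LocP.LegDich
import Fermat.Agent.S13.LocP.IntModel
import Fermat.Prelude.Def_FLTPrelim_FreyPackage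
import Fermat.Prelude.Def_FLTPrelim_GaloisRep
import Fermat.Prelude.Def_FLTPrelim_Ramification

set_option autoImplicit false

namespace Fermat.Agent.S13.LocP

open WeierstrassCurve WeierstrassCurve.Affine Polynomial
open Fermat.Agent.S05

local notation "Qbar" => AlgebraicClosure ℚ

section LinAlg

/-- A proper nonzero subspace of a space with at most `p²` elements has `p` elements, and the
space has exactly `p²` elements. -/
theorem card_of_ne_bot_ne_top {p : ℕ} [Fact p.Prime] {V : Type*} [AddCommGroup V]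
    [Module (ZMod p) V] [Finite V] (hV : Nat.card V ≤ p ^ 2) (N : Submodule (ZMod p) V)
    (hbot : N ≠ ⊥) (htop : N ≠ ⊤) : Nat.card N = p ∧ Nat.card V = p ^ 2 := by
  have hp : p.Prime := Fact.out
  have hcV := Module.natCard_eq_pow_finrank (K := ZMod p) (V := V)
  have hcN := Module.natCard_eq_pow_finrank (K := ZMod p) (V := N)
  rw [Nat.card_zmod] at hcV hcN
  have h1 : Module.finrank (ZMod p) N < Module.finrank (ZMod p) V := Submodule.finrank_lt htop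
  have h2 : Module.finrank (ZMod p) N ≠ 0 := fun h => hbot (Submodule.finrank_eq_zero.mp h)
  have h3 : Module.finrank (ZMod p) V ≤ 2 := by
    rw [hcV] at hV
    exact (Nat.pow_le_pow_iff_right hp.one_lt).mp hV
  have h4 : Module.finrank (ZMod p) N = 1 := by omega
  have h5 : Module.finrank (ZMod p) V = 2 := by omega
  rw [hcN, hcV, h4, h5, pow_one]
  exact ⟨rfl, rfl⟩

/-- In a group of prime order every element is a multiple of any nonzero element. -/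
theorem exists_zsmul_of_natCard_prime {G : Type*} [AddCommGroup G] {p : ℕ} (hp : p.Prime)
    (hG : Nat.card G = p) {Q : G} (hQ0 : Q ≠ 0) (R : G) : ∃ k : ℤ, R = k • Q := by
  have : Fact p.Prime := ⟨hp⟩
  have := mem_zmultiples_of_prime_card hG hQ0 (g' := R)
  obtain ⟨k, hk⟩ := AddSubgroup.mem_zmultiples_iff.mp this
  exact ⟨k, hk.symm⟩

end LinAlg

section Models

/-- The Legendre model `Y² = X (X + a^p) (X + c^p)` (used when `p ∣ c`). -/
def legC (P : FreyPackage) : WeierstrassCurve ℤ :=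
  ⟨0, P.a ^ P.p + P.c ^ P.p, 0, P.a ^ P.p * P.c ^ P.p, 0⟩

/-- The Legendre model `Y² = X (X - a^p) (X + b^p)` (used when `p ∤ c`). -/
def legAB (P : FreyPackage) : WeierstrassCurve ℤ :=
  ⟨0, P.b ^ P.p - P.a ^ P.p, 0, -(P.a ^ P.p * P.b ^ P.p), 0⟩

theorem isLeg_legC (P : FreyPackage) : IsLeg ((legC P).map (Int.castRingHom ℚ) : Affine ℚ) :=
  ⟨by simp [legC], by simp [legC], by simp [legC]⟩

theorem isLeg_legAB (P : FreyPackage) : IsLeg ((legAB P).map (Int.castRingHom ℚ) : Affine ℚ) :=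
  ⟨by simp [legAB], by simp [legAB], by simp [legAB]⟩

/-- A Legendre model of the Frey curve with integer coefficients, for which `Q - σ Q` lies in the
kernel of reduction for all inertia elements `σ` above `p` and all `p`-torsion points `Q`. -/
theorem frey_leg_model (P : FreyPackage) :
    ∃ (Wℤ : WeierstrassCurve ℤ) (r₀ : ℚ),
      IsLeg (Wℤ.map (Int.castRingHom ℚ) : Affine ℚ) ∧
      (Wℤ.map (Int.castRingHom ℚ) : Affine ℚ).a₂ = 4 * P.freyCurve.a₂ + 1 - 3 * r₀ ∧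
      (Wℤ.map (Int.castRingHom ℚ) : Affine ℚ).a₄ =
        16 * P.freyCurve.a₄ - 2 * r₀ * (4 * P.freyCurve.a₂ + 1) + 3 * r₀ ^ 2 ∧
      r₀ ^ 3 - (4 * P.freyCurve.a₂ + 1) * r₀ ^ 2 + 16 * P.freyCurve.a₄ * r₀ = 0 ∧
      ∀ A : ValuationSubring Qbar, A.LiesOverPrime P.p → ∀ σ ∈ A.inertiaSubgroupIn ℚ,
        ∀ Q : ((Wℤ.map (Int.castRingHom ℚ) : Affine ℚ)⁄Qbar).Point, (P.p : ℤ) • Q = 0 →
          InE1 A.valuation
            (Q - Point.map (W' := (Wℤ.map (Int.castRingHom ℚ) : Affine ℚ)) σ.toAlgHom Q) := by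
  have hp := P.pp
  have hp2 : P.p ≠ 2 := by have := P.hp5; omega
  have hqi : Prime (P.p : ℤ) := Nat.prime_iff_prime_int.mp hp
  have hab : (P.p : ℤ) ∣ P.a → (P.p : ℤ) ∣ P.b → False := fun h1 h2 =>
    hqi.not_dvd_one (P.hgcdab ▸ dvd_gcd h1 h2)
  have hac : (P.p : ℤ) ∣ P.a → (P.p : ℤ) ∣ P.c → False := fun h1 h2 =>
    hqi.not_dvd_one (P.hgcdac ▸ dvd_gcd h1 h2)
  have hFLT := P.hFLT
  have hFLTQ : (P.a : ℚ) ^ P.p + (P.b : ℚ) ^ P.p = (P.c : ℚ) ^ P.p := by exact_mod_cast hFLT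
  have hE₂ : P.freyCurve.a₂ = ((P.b : ℚ) ^ P.p - 1 - (P.a : ℚ) ^ P.p) / 4 := rfl
  have hE₄ : P.freyCurve.a₄ = -((P.a : ℚ) ^ P.p) * ((P.b : ℚ) ^ P.p) / 16 := rfl
  by_cases hc : (P.p : ℤ) ∣ P.c
  · -- multiplicative reduction, `p ∣ c`
    have hna : ¬ (P.p : ℤ) ∣ P.a := fun h => hac h hc
    refine ⟨legC P, -((P.a : ℚ) ^ P.p), isLeg_legC P, ?_, ?_, ?_, ?_⟩
    · show Int.castRingHom ℚ (P.a ^ P.p + P.c ^ P.p) = _
      rw [hE₂, eq_intCast]; push_cast; rw [← hFLTQ]; ring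
    · show Int.castRingHom ℚ (P.a ^ P.p * P.c ^ P.p) = _
      rw [hE₂, hE₄, eq_intCast]; push_cast; rw [← hFLTQ]; ring
    · rw [hE₂, hE₄]; ring
    · intro A hA σ hσ Q hQ
      refine sub_inE1_int_mult (isLeg_legC P) hp hp2 ?_ ?_ ?_ (t := P.a * P.c) ?_ A hA σ hσ Q hQ
      · show ¬ (P.p : ℤ) ∣ P.a ^ P.p + P.c ^ P.p
        intro h
        have h1 : (P.p : ℤ) ∣ P.c ^ P.p := dvd_pow hc P.hp0
        have h2 : (P.p : ℤ) ∣ P.a ^ P.p := (dvd_add_left h1).mp h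
        exact hna (hqi.dvd_of_dvd_pow h2)
      · show (P.p : ℤ) ∣ P.a ^ P.p * P.c ^ P.p
        exact Dvd.dvd.mul_left (dvd_pow hc P.hp0) _
      · show P.a ^ P.p * P.c ^ P.p ≠ 0
        exact mul_ne_zero (pow_ne_zero _ P.ha0) (pow_ne_zero _ P.hc0)
      · show P.a ^ P.p * P.c ^ P.p = (P.a * P.c) ^ P.p
        exact (mul_pow _ _ _).symm
  · refine ⟨legAB P, 0, isLeg_legAB P, ?_, ?_, ?_, ?_⟩
    · show Int.castRingHom ℚ (P.b ^ P.p - P.a ^ P.p) = _
      rw [hE₂, eq_intCast]; push_cast; ring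
    · show Int.castRingHom ℚ (-(P.a ^ P.p * P.b ^ P.p)) = _
      rw [hE₂, hE₄, eq_intCast]; push_cast; ring
    · ring
    · intro A hA σ hσ Q hQ
      by_cases hab' : (P.p : ℤ) ∣ P.a * P.b
      · -- multiplicative reduction, `p ∣ a b`
        refine sub_inE1_int_mult (isLeg_legAB P) hp hp2 ?_ ?_ ?_ (t := -(P.a * P.b)) ?_
          A hA σ hσ Q hQ
        · show ¬ (P.p : ℤ) ∣ P.b ^ P.p - P.a ^ P.p
          intro h
          rcases hqi.dvd_or_dvd hab' with h1 | h1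
          · have h2 : (P.p : ℤ) ∣ P.a ^ P.p := dvd_pow h1 P.hp0
            have h3 : (P.p : ℤ) ∣ P.b ^ P.p := (dvd_sub_left h2).mp h
            exact hab h1 (hqi.dvd_of_dvd_pow h3)
          · have h2 : (P.p : ℤ) ∣ P.b ^ P.p := dvd_pow h1 P.hp0
            have h3 : (P.p : ℤ) ∣ P.a ^ P.p := (dvd_sub_right h2).mp h
            exact hab (hqi.dvd_of_dvd_pow h3) h1
        · show (P.p : ℤ) ∣ -(P.a ^ P.p * P.b ^ P.p)
          rw [dvd_neg, ← mul_pow]
          exact dvd_pow hab' P.hp0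
        · show -(P.a ^ P.p * P.b ^ P.p) ≠ 0
          exact neg_ne_zero.mpr (mul_ne_zero (pow_ne_zero _ P.ha0) (pow_ne_zero _ P.hb0))
        · show -(P.a ^ P.p * P.b ^ P.p) = (-(P.a * P.b)) ^ P.p
          rw [P.hp_odd.neg_pow, mul_pow]
      · -- good reduction
        have hna : ¬ (P.p : ℤ) ∣ P.a := fun h => hab' (Dvd.dvd.mul_right h _)
        have hnb : ¬ (P.p : ℤ) ∣ P.b := fun h => hab' (Dvd.dvd.mul_left h _)
        refine sub_inE1_int_good (isLeg_legAB P) hp hp2 ?_ A hA σ hσ Q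
        show ¬ (P.p : ℤ) ∣ -(P.a ^ P.p * P.b ^ P.p) *
          ((P.b ^ P.p - P.a ^ P.p) ^ 2 - 4 * -(P.a ^ P.p * P.b ^ P.p))
        have e : -(P.a ^ P.p * P.b ^ P.p) *
            ((P.b ^ P.p - P.a ^ P.p) ^ 2 - 4 * -(P.a ^ P.p * P.b ^ P.p)) =
            -(P.a ^ P.p * P.b ^ P.p * (P.c ^ P.p) ^ 2) := by
          rw [← hFLT]; ring
        rw [e, dvd_neg]
        intro h
        rcases hqi.dvd_or_dvd h with h1 | h1
        · rcases hqi.dvd_or_dvd h1 with h2 | h2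
          · exact hna (hqi.dvd_of_dvd_pow h2)
          · exact hnb (hqi.dvd_of_dvd_pow h2)
        · exact hc (hqi.dvd_of_dvd_pow (hqi.dvd_of_dvd_pow h1))

end Models

/-- **Local dichotomy at `p` for the Frey curve**, relative to the two facts `hD1`, `hD3` about
`p`-torsion of Weierstrass curves over `AlgebraicClosure ℚ` (at most `p²` points; when there are
exactly `p²` points, `preΨ_p` is `p` times the product of the `X - x`, `x` running over the
`x`-coordinates of the nonzero `p`-torsion points). -/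
theorem frey_dichotomy_of (P : FreyPackage)
    (hD1 : ∀ W : Affine Qbar, Finite (Submodule.torsionBy ℤ W.Point (P.p : ℤ)) ∧
      Nat.card (Submodule.torsionBy ℤ W.Point (P.p : ℤ)) ≤ P.p ^ 2)
    (hD3 : ∀ W : Affine Qbar, Nat.card (Submodule.torsionBy ℤ W.Point (P.p : ℤ)) = P.p ^ 2 →
      ∃ s : Finset Qbar, (∀ x, x ∈ s ↔ ∃ y h, (P.p : ℤ) • Point.some (W' := W) x y h = 0) ∧
        W.preΨ (P.p : ℤ) = C ((P.p : ℕ) : Qbar) * ∏ x ∈ s, (X - C x))
    (N : Submodule (ZMod P.p) (Submodule.torsionBy ℤ ((P.freyCurve : Affine ℚ)⁄Qbar).Point P.p))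
    (hN : Point.IsGaloisStable ℚ N) (hbot : N ≠ ⊥) (htop : N ≠ ⊤) :
    (∀ A : ValuationSubring Qbar, A.LiesOverPrime P.p → ∀ σ ∈ A.inertiaSubgroupIn ℚ,
      ∀ x : Submodule.torsionBy ℤ ((P.freyCurve : Affine ℚ)⁄Qbar).Point P.p, σ • x - x ∈ N) ∨
    (∀ A : ValuationSubring Qbar, A.LiesOverPrime P.p → ∀ σ ∈ A.inertiaSubgroupIn ℚ,
      ∀ x ∈ N, σ • x = x) := by
  have : Fact P.p.Prime := ⟨P.pp⟩
  obtain ⟨Wℤ, r₀, hW, h₂, h₄, h₆, hsub⟩ := frey_leg_model P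
  obtain ⟨φ, hφinj, hφσ⟩ := exists_equivariant_transfer (K := Qbar) (P.freyCurve : Affine ℚ)
    (Wℤ.map (Int.castRingHom ℚ) : Affine ℚ) r₀ rfl rfl rfl hW h₂ h₄ h₆ two_ne_zero
  -- cardinalities
  obtain ⟨hfinV, hcardV⟩ := hD1 ((P.freyCurve : Affine ℚ)⁄Qbar)
  obtain ⟨hNcard, hVcard⟩ := card_of_ne_bot_ne_top hcardV N hbot htop
  obtain ⟨hfinV₀, hcardV₀⟩ := hD1 ((Wℤ.map (Int.castRingHom ℚ) : Affine ℚ)⁄Qbar)
  have hV₀card : Nat.card (Submodule.torsionBy ℤ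
      ((Wℤ.map (Int.castRingHom ℚ) : Affine ℚ)⁄Qbar).Point (P.p : ℤ)) = P.p ^ 2 := by
    apply le_antisymm hcardV₀
    rw [← hVcard]
    let ψ : Submodule.torsionBy ℤ ((P.freyCurve : Affine ℚ)⁄Qbar).Point (P.p : ℤ) →
        Submodule.torsionBy ℤ ((Wℤ.map (Int.castRingHom ℚ) : Affine ℚ)⁄Qbar).Point (P.p : ℤ) :=
      fun x => ⟨φ x.1, by
        rw [Submodule.mem_torsionBy_iff, ← map_zsmul, (Submodule.mem_torsionBy_iff _ _).mp x.2,
          map_zero]⟩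
    exact Nat.card_le_card_of_injective ψ (fun x y hxy => Subtype.ext (hφinj (congrArg Subtype.val hxy)))
  obtain ⟨s, hs, hpre⟩ := hD3 _ hV₀card
  -- the image of `N` in the Legendre model
  let ι : Submodule.torsionBy ℤ ((P.freyCurve : Affine ℚ)⁄Qbar).Point (P.p : ℤ) →+
      ((Wℤ.map (Int.castRingHom ℚ) : Affine ℚ)⁄Qbar).Point :=
    φ.comp (Submodule.torsionBy ℤ ((P.freyCurve : Affine ℚ)⁄Qbar).Point (P.p : ℤ)).subtype.toAddMonoidHom
  have hι : ∀ x, ι x = φ x.1 := fun x => rfl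
  have hιinj : Function.Injective ι := fun x y hxy => Subtype.ext (hφinj hxy)
  let N₀ : AddSubgroup ((Wℤ.map (Int.castRingHom ℚ) : Affine ℚ)⁄Qbar).Point :=
    N.toAddSubgroup.map ι
  have hmemN₀ : ∀ x, ι x ∈ N₀ ↔ x ∈ N := by
    intro x
    constructor
    · rintro ⟨y, hy, hxy⟩
      rw [← hιinj hxy]
      exact hy
    · intro hx
      exact ⟨x, hx, rfl⟩
  have hNp : ∀ R ∈ N₀, (P.p : ℤ) • R = 0 := by
    rintro R ⟨x, -, rfl⟩
    rw [hι, ← map_zsmul, (Submodule.mem_torsionBy_iff _ _).mp x.2, map_zero]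
  have hcyc : ∀ Q ∈ N₀, Q ≠ 0 → ∀ R ∈ N₀, ∃ k : ℤ, R = k • Q := by
    rintro Q ⟨x, hx, rfl⟩ hQ0 R ⟨y, hy, rfl⟩
    have hx0 : (⟨x, hx⟩ : N) ≠ 0 := by
      intro h0
      apply hQ0
      have : x = 0 := congrArg Subtype.val h0
      rw [this, map_zero]
    obtain ⟨k, hk⟩ := exists_zsmul_of_natCard_prime P.pp hNcard hx0 ⟨y, hy⟩
    refine ⟨k, ?_⟩
    have : y = k • x := congrArg Subtype.val hk
    rw [this, map_zsmul]
  have hσι : ∀ (σ : Qbar ≃ₐ[ℚ] Qbar) x, Point.map (W' := (Wℤ.map (Int.castRingHom ℚ) : Affine ℚ))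
      σ.toAlgHom (ι x) = ι (σ • x) := by
    intro σ x
    rw [hι, hι, ← hφσ]
    rfl
  have hstab : ∀ σ : Qbar ≃ₐ[ℚ] Qbar, ∀ R ∈ N₀,
      Point.map (W' := (Wℤ.map (Int.castRingHom ℚ) : Affine ℚ)) σ.toAlgHom R ∈ N₀ := by
    rintro σ R ⟨x, hx, rfl⟩
    rw [hσι]
    exact (hmemN₀ _).mpr (hN σ x hx)
  rcases leg_dichotomy Wℤ hW P.pp hsub s hs hpre N₀ hNp hcyc hstab with h | h
  · left
    intro A hA σ hσ x
    have h1 := h A hA σ hσ (ι x) (by
      rw [hι, ← map_zsmul, (Submodule.mem_torsionBy_iff _ _).mp x.2, map_zero])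
    rw [hσι, ← map_sub, hmemN₀] at h1
    have h2 := N.neg_mem h1
    rwa [neg_sub] at h2
  · right
    intro A hA σ hσ x hx
    have h1 := h A hA σ hσ (ι x) ((hmemN₀ x).mpr hx)
    rw [hσι] at h1
    exact hιinj h1

end Fermat.Agent.S13.LocP
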